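import Mathlib
import Fermat.Prelude.Def_GroupCohomology_Selmer

/-!
# Row S56 — BRIDGE B2 (helper833): trace-form duality `ad⁰(1) ≅ (ad⁰)^∨(1)`

Definition-agnostic form of (B2) of `coord/S56-TB.md` sec. 3.

* Section 1 (any field `k`, `V` finite-dimensional): the trace form `(x, y) ↦ tr (x * y)` on
  `End_k V` is nondegenerate (`eq_zero_of_forall_trace_mul_eq_zero`), and so is its restriction to
  the trace-zero endomorphisms as soon as `dim V ≠ 0` in `k`
  (`eq_zero_of_forall_trace_mul_eq_zero_of_trace_eq_zero`); it is invariant under conjugation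
  (`trace_conj_mul_conj`).
* Section 2 (`k` a finite separable extension of `F`): the same for the `F`-valued form
  `trF F x y = Tr_{k/F} (tr (x * y))`.
* Section 3 (any field `F`, any group `G`): a perfect pairing `β : B × A → F` with
  `β (g b) (g a) = χ g * β b a` gives an isomorphism `B ≅ A.dualTwist χ` in `Rep F G`
  (`isoDualTwistOfPairing`, the Prelude's `Rep.dualTwist`), with
  `(isoDualTwistOfPairing …).hom.hom b a = β b a`.
* Section 4 (`F = ZMod p`, `k` finite of characteristic `p`): `IsAdModel ρ ψ M e` says that the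
  `F_p`-representation `M` is `End⁰(V) ⊗ ψ` via the additive bijection `e : M → End⁰ V`
  (NO compatibility of module structures is needed: additive maps between `ZMod p`-modules are
  linear).  If `A` is a model for `ψ₁`, `B` a model for `ψ₂` and `ψ₁ * ψ₂ = χ`, then
  `adIso : B ≅ A.dualTwist χ`, induced by the trace pairing
  (`adIso_hom_apply`).  In particular (`ψ₁ = 1`, `ψ₂ = χ` and `ψ₁ = χ`, `ψ₂ = 1`):
  `ad⁰(1) ≅ tdual (ad⁰)` and `ad⁰ ≅ tdual (ad⁰(1))`.
* Section 5: a concrete model `adTwistRep ρ ψ` on the subtype of trace-zero endomorphisms,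
  and the dimension formula `finrank_adModel`.

Nothing unproved in this file.
-/

set_option autoImplicit false
set_option linter.unusedSectionVars false
set_option linter.style.haveILetI false

noncomputable section

namespace Fermat.Agent.S56.H833

open Module

/-! ## 1. The trace form on `End_k V` -/

section TraceForm

variable {k : Type*} [Field k] {V : Type*} [AddCommGroup V] [Module k V] [FiniteDimensional k V]

/-- The trace form on `End_k V` is nondegenerate. -/
theorem eq_zero_of_forall_trace_mul_eq_zero (x : Module.End k V)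
    (h : ∀ y : Module.End k V, LinearMap.trace k V (x * y) = 0) : x = 0 := by
  apply LinearMap.ext
  intro v
  rw [LinearMap.zero_apply]
  apply (Module.forall_dual_apply_eq_zero_iff k (x v)).1
  intro f
  have h1 := h (f.smulRight v)
  have e : x * f.smulRight v = f.smulRight (x v) := by
    apply LinearMap.ext
    intro w
    rw [Module.End.mul_apply, LinearMap.smulRight_apply, LinearMap.smulRight_apply, map_smul]
  rw [e, LinearMap.trace_smulRight] at h1
  exact h1

/-- The trace form on the trace-zero endomorphisms is nondegenerate if `dim V ≠ 0` in `k`. -/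
theorem eq_zero_of_forall_trace_mul_eq_zero_of_trace_eq_zero
    (hdim : (finrank k V : k) ≠ 0) (x : Module.End k V) (hx : LinearMap.trace k V x = 0)
    (h : ∀ y : Module.End k V, LinearMap.trace k V y = 0 → LinearMap.trace k V (x * y) = 0) :
    x = 0 := by
  apply eq_zero_of_forall_trace_mul_eq_zero
  intro y
  set c : k := LinearMap.trace k V y / (finrank k V : k) with hc
  have hy0 : LinearMap.trace k V (y - c • (1 : Module.End k V)) = 0 := by
    rw [map_sub, map_smul, LinearMap.trace_one, smul_eq_mul, hc, div_mul_cancel₀ _ hdim, sub_self]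
  have h1 := h _ hy0
  rw [mul_sub, mul_smul_comm, mul_one, map_sub, map_smul, hx, smul_zero, sub_zero] at h1
  exact h1

/-- Symmetric version: nondegeneracy in the second variable. -/
theorem eq_zero_of_forall_trace_mul_eq_zero_of_trace_eq_zero'
    (hdim : (finrank k V : k) ≠ 0) (y : Module.End k V) (hy : LinearMap.trace k V y = 0)
    (h : ∀ x : Module.End k V, LinearMap.trace k V x = 0 → LinearMap.trace k V (x * y) = 0) :
    y = 0 :=
  eq_zero_of_forall_trace_mul_eq_zero_of_trace_eq_zero hdim y hy fun x hx => by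
    rw [LinearMap.trace_mul_comm]; exact h x hx

/-- Conjugation does not change the trace (inverse given by an equation). -/
theorem trace_conj_of_mul_eq_one (u u' x : Module.End k V) (h : u' * u = 1) :
    LinearMap.trace k V (u * x * u') = LinearMap.trace k V x := by
  rw [LinearMap.trace_mul_comm, ← mul_assoc, h, one_mul]

/-- The trace form is invariant under simultaneous conjugation. -/
theorem trace_conj_mul_conj (u u' x y : Module.End k V) (h : u' * u = 1) :
    LinearMap.trace k V ((u * x * u') * (u * y * u')) = LinearMap.trace k V (x * y) := by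
  have e : (u * x * u') * (u * y * u') = u * (x * y) * u' := by
    calc (u * x * u') * (u * y * u') = u * x * (u' * u) * y * u' := by simp only [mul_assoc]
      _ = u * (x * y) * u' := by rw [h, mul_one]; simp only [mul_assoc]
  rw [e, trace_conj_of_mul_eq_one u u' _ h]

end TraceForm

/-! ## 2. The `F`-valued trace form, `k/F` finite separable -/

section TraceFormF

variable (F : Type*) [Field F] {k : Type*} [Field k] [Algebra F k] [FiniteDimensional F k]
  [Algebra.IsSeparable F k]
  {V : Type*} [AddCommGroup V] [Module k V] [FiniteDimensional k V]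

/-- The `F`-valued trace form `(x, y) ↦ Tr_{k/F} (tr (x * y))` on `End_k V`. -/
def trF (x y : Module.End k V) : F :=
  Algebra.trace F k (LinearMap.trace k V (x * y))

theorem trF_add_left (x x' y : Module.End k V) : trF F (x + x') y = trF F x y + trF F x' y := by
  unfold trF; rw [add_mul, map_add, map_add]

theorem trF_add_right (x y y' : Module.End k V) : trF F x (y + y') = trF F x y + trF F x y' := by
  unfold trF; rw [mul_add, map_add, map_add]

theorem trF_comm (x y : Module.End k V) : trF F x y = trF F y x := by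
  unfold trF; rw [LinearMap.trace_mul_comm]

theorem trF_smul_left (a : k) (x y : Module.End k V) :
    trF F (a • x) y = Algebra.trace F k (a * LinearMap.trace k V (x * y)) := by
  unfold trF; rw [smul_mul_assoc, map_smul, smul_eq_mul]

theorem trF_smul_right (a : k) (x y : Module.End k V) :
    trF F x (a • y) = Algebra.trace F k (a * LinearMap.trace k V (x * y)) := by
  unfold trF; rw [mul_smul_comm, map_smul, smul_eq_mul]

theorem trF_algebraMap_smul_left (a : F) (x y : Module.End k V) :
    trF F (algebraMap F k a • x) y = a * trF F x y := by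
  rw [trF_smul_left, ← Algebra.smul_def, map_smul, smul_eq_mul]; rfl

theorem trF_algebraMap_smul_right (a : F) (x y : Module.End k V) :
    trF F x (algebraMap F k a • y) = a * trF F x y := by
  rw [trF_smul_right, ← Algebra.smul_def, map_smul, smul_eq_mul]; rfl

theorem trF_conj (u u' x y : Module.End k V) (h : u' * u = 1) :
    trF F (u * x * u') (u * y * u') = trF F x y := by
  unfold trF; rw [trace_conj_mul_conj u u' x y h]

/-- The trace form `Tr_{k/F}` is nondegenerate. -/
theorem exists_algTrace_mul_ne_zero {c : k} (hc : c ≠ 0) :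
    ∃ d : k, Algebra.trace F k (d * c) ≠ 0 := by
  by_contra hcon
  refine hc ((traceForm_nondegenerate F k).1 c fun d => ?_)
  rw [Algebra.traceForm_apply, mul_comm]
  by_contra hd
  exact hcon ⟨d, hd⟩

/-- The `F`-valued trace form on the trace-zero endomorphisms is nondegenerate
if `dim V ≠ 0` in `k`. -/
theorem eq_zero_of_forall_trF_eq_zero
    (hdim : (finrank k V : k) ≠ 0) (x : Module.End k V) (hx : LinearMap.trace k V x = 0)
    (h : ∀ y : Module.End k V, LinearMap.trace k V y = 0 → trF F x y = 0) : x = 0 := by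
  apply eq_zero_of_forall_trace_mul_eq_zero_of_trace_eq_zero hdim x hx
  intro y hy
  by_contra hne
  obtain ⟨d, hd⟩ := exists_algTrace_mul_ne_zero F hne
  apply hd
  have h1 := h (d • y) (by rw [map_smul, hy, smul_zero])
  rw [trF_smul_right] at h1
  exact h1

theorem eq_zero_of_forall_trF_eq_zero'
    (hdim : (finrank k V : k) ≠ 0) (y : Module.End k V) (hy : LinearMap.trace k V y = 0)
    (h : ∀ x : Module.End k V, LinearMap.trace k V x = 0 → trF F x y = 0) : y = 0 :=
  eq_zero_of_forall_trF_eq_zero F hdim y hy fun x hx => by rw [trF_comm]; exact h x hx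

end TraceFormF

/-! ## 3. Perfect equivariant pairings and `Rep.dualTwist` -/

section Pairing

universe u w

variable {F G : Type u} [Field F] [Group G]

/-- A perfect pairing of finite-dimensional spaces, as a linear equivalence onto the dual. -/
def pairingEquiv {A B : Type w} [AddCommGroup A] [Module F A] [AddCommGroup B] [Module F B]
    [FiniteDimensional F A] [FiniteDimensional F B]
    (β : B →ₗ[F] A →ₗ[F] F) (hl : ∀ b, (∀ a, β b a = 0) → b = 0)
    (hr : ∀ a, (∀ b, β b a = 0) → a = 0) : B ≃ₗ[F] Module.Dual F A :=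
  LinearEquiv.ofBijective β (by
    have hinj : Function.Injective β := by
      rw [injective_iff_map_eq_zero]
      intro b hb
      exact hl b fun a => by rw [hb, LinearMap.zero_apply]
    have hinj' : Function.Injective β.flip := by
      rw [injective_iff_map_eq_zero]
      intro a ha
      refine hr a fun b => ?_
      have := congrArg (fun f => f b) ha
      simpa using this
    have h1 : finrank F B ≤ finrank F A := by
      have := LinearMap.finrank_le_finrank_of_injective hinj
      rwa [Subspace.dual_finrank_eq] at this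
    have h2 : finrank F A ≤ finrank F B := by
      have := LinearMap.finrank_le_finrank_of_injective hinj'
      rwa [Subspace.dual_finrank_eq] at this
    have h3 : finrank F B = finrank F (Module.Dual F A) := by
      rw [Subspace.dual_finrank_eq]; exact le_antisymm h1 h2
    exact ⟨hinj, (LinearMap.injective_iff_surjective_of_finrank_eq_finrank h3).1 hinj⟩)

@[simp]
theorem pairingEquiv_apply {A B : Type w} [AddCommGroup A] [Module F A] [AddCommGroup B]
    [Module F B] [FiniteDimensional F A] [FiniteDimensional F B]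
    (β : B →ₗ[F] A →ₗ[F] F) (hl : ∀ b, (∀ a, β b a = 0) → b = 0)
    (hr : ∀ a, (∀ b, β b a = 0) → a = 0) (b : B) (a : A) :
    pairingEquiv β hl hr b a = β b a := rfl

/-- A perfect pairing `β : B × A → F` with `β (g b) (g a) = χ g * β b a` identifies `B` with
the twisted dual `A.dualTwist χ` (the Prelude's Tate dual when `χ` is the cyclotomic character). -/
def isoDualTwistOfPairing (A B : Rep.{u} F G) [FiniteDimensional F A] [FiniteDimensional F B]
    (χ : G →* Fˣ) (β : B →ₗ[F] A →ₗ[F] F)
    (hβ : ∀ g b a, β (B.ρ g b) (A.ρ g a) = (χ g : F) * β b a)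
    (hl : ∀ b, (∀ a, β b a = 0) → b = 0) (hr : ∀ a, (∀ b, β b a = 0) → a = 0) :
    B ≅ A.dualTwist χ :=
  Rep.mkIso (ρ := B.ρ) (σ := A.ρ.dual.twist χ)
    (Representation.Equiv.mk (pairingEquiv β hl hr) (by
      intro g
      apply LinearMap.ext
      intro b
      apply LinearMap.ext
      intro a
      have h1 := hβ g b (A.ρ g⁻¹ a)
      have h2 : A.ρ g (A.ρ g⁻¹ a) = a := by
        rw [← Module.End.mul_apply, ← map_mul, mul_inv_cancel, map_one, Module.End.one_apply]
      rw [h2] at h1
      change β (B.ρ g b) a = (χ g : F) * β b (A.ρ g⁻¹ a)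
      exact h1))

theorem isoDualTwistOfPairing_hom_apply (A B : Rep.{u} F G) [FiniteDimensional F A]
    [FiniteDimensional F B] (χ : G →* Fˣ) (β : B →ₗ[F] A →ₗ[F] F)
    (hβ : ∀ g b a, β (B.ρ g b) (A.ρ g a) = (χ g : F) * β b a)
    (hl : ∀ b, (∀ a, β b a = 0) → b = 0) (hr : ∀ a, (∀ b, β b a = 0) → a = 0) (b : B) (a : A) :
    ((isoDualTwistOfPairing A B χ β hβ hl hr).hom.hom b : Module.Dual F A) a = β b a := rfl

end Pairing

/-! ## 4. Models of `End⁰(V) ⊗ ψ` over `F_p` and the trace-form isomorphism -/

section Model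

variable {p : ℕ} [Fact p.Prime] {G : Type} [Group G]
  {k : Type*} [Field k] [Algebra (ZMod p) k] [Finite k]
  {V : Type*} [AddCommGroup V] [Module k V] [FiniteDimensional k V]

/-- `M : Rep (ZMod p) G` is a model of `End⁰(V) ⊗ ψ`: `e` is an additive bijection of `M` onto
the trace-zero endomorphisms of `V`, and `e (g • m) = ψ(g) • ρ(g) e(m) ρ(g)⁻¹`.
(No compatibility between the `ZMod p`-structure of `M` and the `k`-structure of `End V` is
required: it is automatic.) -/
structure IsAdModel (ρ : G →* Module.End k V) (ψ : G →* (ZMod p)ˣ) (M : Rep.{0} (ZMod p) G)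
    (e : M →+ Module.End k V) : Prop where
  injective : Function.Injective e
  trace_eq_zero : ∀ m, LinearMap.trace k V (e m) = 0
  surjective : ∀ x, LinearMap.trace k V x = 0 → ∃ m, e m = x
  equivariant : ∀ g m,
    e (M.ρ g m) = algebraMap (ZMod p) k (ψ g : ZMod p) • (ρ g * e m * ρ g⁻¹)

/-- `End_k V` is finite. -/
theorem finite_end : Finite (Module.End k V) := by
  have : Finite V := Module.finite_of_finite k
  exact Finite.of_injective (fun f : Module.End k V => (f : V → V)) DFunLike.coe_injective

theorem IsAdModel.finite {ρ : G →* Module.End k V} {ψ : G →* (ZMod p)ˣ}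
    {M : Rep.{0} (ZMod p) G} {e : M →+ Module.End k V} (h : IsAdModel ρ ψ M e) : Finite M :=
  haveI := finite_end (k := k) (V := V)
  Finite.of_injective e h.injective

theorem IsAdModel.finiteDimensional {ρ : G →* Module.End k V} {ψ : G →* (ZMod p)ˣ}
    {M : Rep.{0} (ZMod p) G} {e : M →+ Module.End k V} (h : IsAdModel ρ ψ M e) :
    FiniteDimensional (ZMod p) M :=
  haveI := h.finite
  Module.Finite.of_finite

/-- The trace pairing `(b, a) ↦ Tr_{k/F_p} tr (eB b * eA a)` as an `F_p`-bilinear map. -/
def adPairing (p : ℕ) [Fact p.Prime] {k : Type*} [Field k] [Algebra (ZMod p) k] [Finite k]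
    {V : Type*} [AddCommGroup V] [Module k V] [FiniteDimensional k V]
    {A B : Type*} [AddCommGroup A] [Module (ZMod p) A] [AddCommGroup B]
    [Module (ZMod p) B] (eA : A →+ Module.End k V) (eB : B →+ Module.End k V) :
    B →ₗ[ZMod p] A →ₗ[ZMod p] ZMod p :=
  AddMonoidHom.toZModLinearMap p
    { toFun := fun b => AddMonoidHom.toZModLinearMap p
        { toFun := fun a => trF (ZMod p) (eB b) (eA a)
          map_zero' := by simp [trF]
          map_add' := fun a a' => by rw [map_add, trF_add_right] }
      map_zero' := by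
        apply LinearMap.ext
        intro a
        simp [trF]
      map_add' := fun b b' => by
        apply LinearMap.ext
        intro a
        simp [trF_add_left] }

@[simp]
theorem adPairing_apply {A B : Type*} [AddCommGroup A] [Module (ZMod p) A] [AddCommGroup B]
    [Module (ZMod p) B] (eA : A →+ Module.End k V) (eB : B →+ Module.End k V) (b : B) (a : A) :
    adPairing p eA eB b a = Algebra.trace (ZMod p) k (LinearMap.trace k V (eB b * eA a)) := rfl

theorem rho_inv_mul_rho (ρ : G →* Module.End k V) (g : G) : ρ g⁻¹ * ρ g = 1 := by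
  rw [← map_mul, inv_mul_cancel, map_one]

/-- Equivariance of the trace pairing between two models. -/
theorem adPairing_equivariant {ρ : G →* Module.End k V} {ψ₁ ψ₂ χ : G →* (ZMod p)ˣ}
    {A B : Rep.{0} (ZMod p) G} {eA : A →+ Module.End k V} {eB : B →+ Module.End k V}
    (hA : IsAdModel ρ ψ₁ A eA) (hB : IsAdModel ρ ψ₂ B eB) (hχ : ∀ g, ψ₁ g * ψ₂ g = χ g)
    (g : G) (b : B) (a : A) :
    adPairing p eA eB (B.ρ g b) (A.ρ g a) = (χ g : ZMod p) * adPairing p eA eB b a := by
  rw [adPairing_apply, adPairing_apply, hA.equivariant, hB.equivariant]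
  change trF (ZMod p) _ _ = _ * trF (ZMod p) _ _
  rw [trF_algebraMap_smul_left, trF_algebraMap_smul_right,
    trF_conj (ZMod p) (ρ g) (ρ g⁻¹) _ _ (rho_inv_mul_rho ρ g), ← mul_assoc, ← hχ g,
    Units.val_mul, mul_comm (ψ₂ g : ZMod p)]

theorem adPairing_left_nondeg (hdim : (finrank k V : k) ≠ 0)
    {ρ : G →* Module.End k V} {ψ₁ ψ₂ : G →* (ZMod p)ˣ}
    {A B : Rep.{0} (ZMod p) G} {eA : A →+ Module.End k V} {eB : B →+ Module.End k V}
    (hA : IsAdModel ρ ψ₁ A eA) (hB : IsAdModel ρ ψ₂ B eB)
    (b : B) (h : ∀ a, adPairing p eA eB b a = 0) : b = 0 := by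
  apply hB.injective
  rw [map_zero]
  apply eq_zero_of_forall_trF_eq_zero (ZMod p) hdim _ (hB.trace_eq_zero b)
  intro y hy
  obtain ⟨a, rfl⟩ := hA.surjective y hy
  exact h a

theorem adPairing_right_nondeg (hdim : (finrank k V : k) ≠ 0)
    {ρ : G →* Module.End k V} {ψ₁ ψ₂ : G →* (ZMod p)ˣ}
    {A B : Rep.{0} (ZMod p) G} {eA : A →+ Module.End k V} {eB : B →+ Module.End k V}
    (hA : IsAdModel ρ ψ₁ A eA) (hB : IsAdModel ρ ψ₂ B eB)
    (a : A) (h : ∀ b, adPairing p eA eB b a = 0) : a = 0 := by
  apply hA.injective
  rw [map_zero]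
  apply eq_zero_of_forall_trF_eq_zero' (ZMod p) hdim _ (hA.trace_eq_zero a)
  intro x hx
  obtain ⟨b, rfl⟩ := hB.surjective x hx
  exact h b

/-- **(B2)** If `A` is a model of `End⁰ V ⊗ ψ₁`, `B` a model of `End⁰ V ⊗ ψ₂` and
`ψ₁ ψ₂ = χ`, then the trace pairing identifies `B` with `A.dualTwist χ`. -/
def adIso (hdim : (finrank k V : k) ≠ 0)
    {ρ : G →* Module.End k V} {ψ₁ ψ₂ χ : G →* (ZMod p)ˣ}
    {A B : Rep.{0} (ZMod p) G} {eA : A →+ Module.End k V} {eB : B →+ Module.End k V}
    (hA : IsAdModel ρ ψ₁ A eA) (hB : IsAdModel ρ ψ₂ B eB) (hχ : ∀ g, ψ₁ g * ψ₂ g = χ g) :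
    B ≅ A.dualTwist χ :=
  haveI := hA.finiteDimensional
  haveI := hB.finiteDimensional
  isoDualTwistOfPairing A B χ (adPairing p eA eB) (adPairing_equivariant hA hB hχ)
    (adPairing_left_nondeg hdim hA hB) (adPairing_right_nondeg hdim hA hB)

theorem adIso_hom_apply (hdim : (finrank k V : k) ≠ 0)
    {ρ : G →* Module.End k V} {ψ₁ ψ₂ χ : G →* (ZMod p)ˣ}
    {A B : Rep.{0} (ZMod p) G} {eA : A →+ Module.End k V} {eB : B →+ Module.End k V}
    (hA : IsAdModel ρ ψ₁ A eA) (hB : IsAdModel ρ ψ₂ B eB) (hχ : ∀ g, ψ₁ g * ψ₂ g = χ g)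
    (b : B) (a : A) :
    ((adIso hdim hA hB hχ).hom.hom b : Module.Dual (ZMod p) A) a =
      Algebra.trace (ZMod p) k (LinearMap.trace k V (eB b * eA a)) := rfl

/-- `ad⁰(1) ≅ tdual (ad⁰)`: the case `ψ₁ = 1`, `ψ₂ = χ`. -/
def adIsoTw (hdim : (finrank k V : k) ≠ 0)
    {ρ : G →* Module.End k V} {χ : G →* (ZMod p)ˣ}
    {A B : Rep.{0} (ZMod p) G} {eA : A →+ Module.End k V} {eB : B →+ Module.End k V}
    (hA : IsAdModel ρ 1 A eA) (hB : IsAdModel ρ χ B eB) : B ≅ A.dualTwist χ :=
  adIso hdim hA hB fun g => by rw [MonoidHom.one_apply, one_mul]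

/-- `ad⁰ ≅ tdual (ad⁰(1))`: the case `ψ₁ = χ`, `ψ₂ = 1`. -/
def adIsoUn (hdim : (finrank k V : k) ≠ 0)
    {ρ : G →* Module.End k V} {χ : G →* (ZMod p)ˣ}
    {A B : Rep.{0} (ZMod p) G} {eA : A →+ Module.End k V} {eB : B →+ Module.End k V}
    (hA : IsAdModel ρ 1 A eA) (hB : IsAdModel ρ χ B eB) : A ≅ B.dualTwist χ :=
  adIso hdim hB hA fun g => by rw [MonoidHom.one_apply, mul_one]

/-- In characteristic `p ≠ 2`, a two-dimensional `V` has `dim V ≠ 0` in `k`. -/
theorem finrank_ne_zero_of_eq_two (hp2 : p ≠ 2) (h2 : finrank k V = 2) :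
    (finrank k V : k) ≠ 0 := by
  have : CharP k p := charP_of_injective_algebraMap (algebraMap (ZMod p) k).injective p
  rw [h2]
  intro h
  have h' : ((2 : ℕ) : k) = 0 := by exact_mod_cast h
  rw [CharP.cast_eq_zero_iff k p] at h'
  have hp : p.Prime := Fact.out
  exact hp2 ((Nat.prime_dvd_prime_iff_eq hp Nat.prime_two).1 h')

end Model

/-! ## 5. Restriction of scalars to `F_p` with a twist: concrete models -/

section FpTwist

universe w

variable (p : ℕ) [Fact p.Prime] {G : Type} [Group G] {k : Type*} [Field k] [Algebra (ZMod p) k]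

/-- The `F_p`-representation `R ⊗ ψ` obtained from a `k`-representation `R` by restriction of
scalars along `F_p → k` and twisting by the character `ψ`.  The carrier is `R.V` itself
(same type, same addition); `g` acts by `x ↦ ψ(g) • R.ρ g x`. -/
def fpTwist (R : Rep.{w} k G) (ψ : G →* (ZMod p)ˣ) : Rep.{w} (ZMod p) G :=
  letI : Module (ZMod p) R.V := Module.compHom R.V (algebraMap (ZMod p) k)
  Rep.of (X := R.V)
    { toFun := fun g =>
        (ψ g : ZMod p) • AddMonoidHom.toZModLinearMap p (R.ρ g).toAddMonoidHom
      map_one' := by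
        apply LinearMap.ext
        intro x
        simp
      map_mul' := fun g h => by
        apply LinearMap.ext
        intro x
        change algebraMap (ZMod p) k ((ψ (g * h) : (ZMod p)ˣ) : ZMod p) • R.ρ (g * h) x =
          algebraMap (ZMod p) k (ψ g : ZMod p) • R.ρ g
            (algebraMap (ZMod p) k (ψ h : ZMod p) • R.ρ h x)
        rw [map_mul, Units.val_mul, map_mul, map_mul, Module.End.mul_apply, map_smul, smul_smul] }

variable {p}

theorem fpTwist_ρ_apply (R : Rep.{w} k G) (ψ : G →* (ZMod p)ˣ) (g : G) (x : R.V) :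
    ((fpTwist p R ψ).ρ g x : R.V) = algebraMap (ZMod p) k (ψ g : ZMod p) • R.ρ g x := rfl

theorem fpTwist_one_ρ_apply (R : Rep.{w} k G) (g : G) (x : R.V) :
    ((fpTwist p R 1).ρ g x : R.V) = R.ρ g x := by
  rw [fpTwist_ρ_apply, MonoidHom.one_apply, Units.val_one, map_one, one_smul]

theorem fpTwist_smul (R : Rep.{w} k G) (ψ : G →* (ZMod p)ˣ) (a : ZMod p)
    (x : (fpTwist p R ψ).V) :
    a • x = (algebraMap (ZMod p) k a • (show R.V from x) : R.V) := rfl

variable [Finite k] {V : Type*} [AddCommGroup V] [Module k V] [FiniteDimensional k V]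

/-- If `e : R → End_k V` identifies the `k`-representation `R` with the adjoint action on the
trace-zero endomorphisms, then `fpTwist p R ψ` is a model of `End⁰ V ⊗ ψ`. -/
theorem isAdModel_fpTwist (R : Rep.{0} k G) (ρ : G →* Module.End k V) (ψ : G →* (ZMod p)ˣ)
    (e : R.V →ₗ[k] Module.End k V) (hinj : Function.Injective e)
    (htr : ∀ x, LinearMap.trace k V (e x) = 0)
    (hsurj : ∀ y, LinearMap.trace k V y = 0 → ∃ x, e x = y)
    (hρ : ∀ g x, e (R.ρ g x) = ρ g * e x * ρ g⁻¹) :
    IsAdModel ρ ψ (fpTwist p R ψ) (e.toAddMonoidHom : R.V →+ Module.End k V) where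
  injective := hinj
  trace_eq_zero := htr
  surjective := hsurj
  equivariant := fun g (m : R.V) => by
    have h1 : e (algebraMap (ZMod p) k (ψ g : ZMod p) • R.ρ g m) =
        algebraMap (ZMod p) k (ψ g : ZMod p) • (ρ g * e m * ρ g⁻¹) := by
      rw [map_smul, hρ]
    exact h1

end FpTwist

/-! ## 6. Dimensions: `dim_{F_p} = [k : F_p] · dim_k` -/

section Dim

variable {p : ℕ} [Fact p.Prime] {k : Type*} [Field k] [Algebra (ZMod p) k]

/-- Any `ZMod p`-module structure on a `k`-vector space is compatible with the `k`-structure. -/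
theorem isScalarTower_zmod (X : Type*) [AddCommGroup X] [Module k X] [Module (ZMod p) X] :
    IsScalarTower (ZMod p) k X where
  smul_assoc a c x := by
    rw [← ZMod.natCast_zmod_val a, Nat.cast_smul_eq_nsmul, Nat.cast_smul_eq_nsmul, smul_assoc]

/-- `dim_{F_p} X = [k : F_p] · dim_k X` for every `ZMod p`-module structure on the
`k`-vector space `X`. -/
theorem finrank_zmod_eq_mul [Finite k] (X : Type*) [AddCommGroup X] [Module k X]
    [Module (ZMod p) X] [Module.Finite k X] :
    finrank (ZMod p) X = finrank (ZMod p) k * finrank k X := by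
  haveI := isScalarTower_zmod (p := p) (k := k) X
  exact (Module.finrank_mul_finrank (ZMod p) k X).symm

/-- Comparison of dimensions along an injective additive map from a `k`-space to an
`F_p`-space. -/
theorem finrank_mul_le_of_injective [Finite k] {X : Type*} [AddCommGroup X] [Module k X]
    [Module.Finite k X] {H : Type*} [AddCommGroup H] [Module (ZMod p) H]
    [Module.Finite (ZMod p) H] (f : X →+ H) (hf : Function.Injective f) :
    finrank (ZMod p) k * finrank k X ≤ finrank (ZMod p) H := by
  letI : Module (ZMod p) X := Module.compHom X (algebraMap (ZMod p) k)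
  rw [← finrank_zmod_eq_mul (p := p) (k := k) X]
  exact LinearMap.finrank_le_finrank_of_injective (f := AddMonoidHom.toZModLinearMap p f) hf

/-- Comparison of dimensions along a surjective additive map from an `F_p`-space to a
`k`-space. -/
theorem finrank_mul_le_of_surjective [Finite k] {X : Type*} [AddCommGroup X] [Module k X]
    [Module.Finite k X] {H : Type*} [AddCommGroup H] [Module (ZMod p) H]
    [Module.Finite (ZMod p) H] (f : H →+ X) (hf : Function.Surjective f) :
    finrank (ZMod p) k * finrank k X ≤ finrank (ZMod p) H := by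
  letI : Module (ZMod p) X := Module.compHom X (algebraMap (ZMod p) k)
  rw [← finrank_zmod_eq_mul (p := p) (k := k) X]
  exact LinearMap.finrank_le_finrank_of_surjective (f := AddMonoidHom.toZModLinearMap p f) hf

variable {V : Type*} [AddCommGroup V] [Module k V] [FiniteDimensional k V]

/-- The trace-zero endomorphisms have dimension `n² − 1` when `n = dim V ≠ 0` in `k`. -/
theorem finrank_ker_trace (hdim : (finrank k V : k) ≠ 0) :
    finrank k (LinearMap.ker (LinearMap.trace k V)) = finrank k V * finrank k V - 1 := by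
  have hsurj : Function.Surjective (LinearMap.trace k V) := by
    intro c
    refine ⟨(c / (finrank k V : k)) • (1 : Module.End k V), ?_⟩
    rw [map_smul, LinearMap.trace_one, smul_eq_mul, div_mul_cancel₀ _ hdim]
  have h1 := LinearMap.finrank_range_add_finrank_ker (LinearMap.trace k V)
  rw [LinearMap.range_eq_top.2 hsurj, finrank_top, Module.finrank_self,
    Module.finrank_linearMap] at h1
  omega

/-- The `F_p`-dimension of a model of `End⁰ V ⊗ ψ`. -/
theorem IsAdModel.finrank_eq [Finite k] {G : Type} [Group G] (hdim : (finrank k V : k) ≠ 0)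
    {ρ : G →* Module.End k V} {ψ : G →* (ZMod p)ˣ} {M : Rep.{0} (ZMod p) G}
    {e : M →+ Module.End k V} (h : IsAdModel ρ ψ M e) :
    finrank (ZMod p) M = finrank (ZMod p) k * (finrank k V * finrank k V - 1) := by
  haveI := h.finiteDimensional
  rw [← finrank_ker_trace hdim]
  apply le_antisymm
  · -- `M` injects into the `k`-space of trace-zero endomorphisms
    letI : Module (ZMod p) (LinearMap.ker (LinearMap.trace k V)) :=
      Module.compHom _ (algebraMap (ZMod p) k)
    rw [← finrank_zmod_eq_mul (p := p) (k := k) (LinearMap.ker (LinearMap.trace k V))]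
    haveI : Finite (Module.End k V) := finite_end
    haveI : Module.Finite (ZMod p) (LinearMap.ker (LinearMap.trace k V)) :=
      Module.Finite.of_finite
    let f : M →+ LinearMap.ker (LinearMap.trace k V) :=
      { toFun := fun m => ⟨e m, LinearMap.mem_ker.2 (h.trace_eq_zero m)⟩
        map_zero' := Subtype.ext (map_zero e)
        map_add' := fun a b => Subtype.ext (map_add e a b) }
    have hf : Function.Injective f := fun a b hab =>
      h.injective (congrArg Subtype.val hab)
    exact LinearMap.finrank_le_finrank_of_injective (f := AddMonoidHom.toZModLinearMap p f) hf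
  · -- and surjects onto it
    classical
    have hs : ∀ x : LinearMap.ker (LinearMap.trace k V), ∃ m, e m = x.1 := fun x =>
      h.surjective x.1 (LinearMap.mem_ker.1 x.2)
    let g : LinearMap.ker (LinearMap.trace k V) →+ M :=
      { toFun := fun x => (hs x).choose
        map_zero' := h.injective (by rw [(hs 0).choose_spec, map_zero]; rfl)
        map_add' := fun a b => h.injective (by
          rw [(hs (a + b)).choose_spec, map_add, (hs a).choose_spec, (hs b).choose_spec]; rfl) }
    have hg : Function.Injective g := fun a b hab => by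
      apply Subtype.ext
      rw [← (hs a).choose_spec, ← (hs b).choose_spec]
      exact congrArg e hab
    exact finrank_mul_le_of_injective g hg

end Dim

end Fermat.Agent.S56.H833

end
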