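import Fermat.Agent.S56.Br.H374.Tw
import Fermat.Agent.S56.H833.TraceForm

/-!
# Row S56 — BRIDGE B2 (helper833), concrete form on helper374's `adRep` / `adTw`

`adFp ρbar p`, `adTwFp ρbar p : Rep (ZMod p) G_ℚ` are `ad⁰ρ̄` and `ad⁰ρ̄(1)` as `F_p`-representations
(restriction of scalars of helper374's `Br.adRep ρbar`, `Br.adTw ρbar p : Rep k G_ℚ`; SAME carrier
type, same addition, same action of `G_ℚ`).

* `adTwFpIso : adTwFp ρbar p ≅ tdual p (adFp ρbar p)`   (`ad⁰(1) ≅ Hom(ad⁰, μ_p)`),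
* `adFpIso   : adFp ρbar p ≅ tdual p (adTwFp ρbar p)`   (`ad⁰ ≅ Hom(ad⁰(1), μ_p)`),
  both induced by the trace pairing `(x, y) ↦ Tr_{k/F_p} tr (x y)` (`adTwFpIso_apply`, …),
  for `p ≠ 2`;
* `finrank_adFp`, `finrank_adTwFp` : the `F_p`-dimension is `3 [k : F_p]`.

Nothing unproved in this file.
-/

set_option autoImplicit false
set_option linter.style.haveILetI false
set_option linter.unusedSectionVars false

noncomputable section

namespace Fermat.Agent.S56.H833

open Fermat.Agent.S56 Fermat.Agent.S55.PT ExtCitation Module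

variable {k : Type} [Field k] [Finite k] (ρbar : ResidualGaloisRep k) (p : ℕ) [Fact p.Prime]
  [CharP k p]

/-- `ad⁰ρ̄` as a representation over `F_p`. -/
def adFp : Rep.{0, 0, 0} (ZMod p) GQ :=
  letI := ZMod.algebra k p
  fpTwist p (Br.adRep ρbar) 1

/-- `ad⁰ρ̄(1)` as a representation over `F_p`. -/
def adTwFp : Rep.{0, 0, 0} (ZMod p) GQ :=
  letI := ZMod.algebra k p
  fpTwist p (Br.adTw ρbar p) 1

/-- The underlying endomorphism of an element of `adFp`. -/
def valFp : adFp ρbar p →+ Module.End k ρbar.V := (Br.val ρbar).toAddMonoidHom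

/-- The underlying endomorphism of an element of `adTwFp`. -/
def valTwFp : adTwFp ρbar p →+ Module.End k ρbar.V := (Br.valTw ρbar p).toAddMonoidHom

theorem valFp_ρ (σ : GQ) (m : adFp ρbar p) :
    valFp ρbar p ((adFp ρbar p).ρ σ m) = ρbar.ρ σ * valFp ρbar p m * ρbar.ρ σ⁻¹ := by
  letI := ZMod.algebra k p
  have h := fpTwist_one_ρ_apply (p := p) (Br.adRep ρbar) σ m
  exact (congrArg (Br.val ρbar) h).trans (Br.val_ρ ρbar σ m)

theorem valTwFp_ρ (σ : GQ) (m : adTwFp ρbar p) :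
    valTwFp ρbar p ((adTwFp ρbar p).ρ σ m) =
      ((Br.cycK k p σ : kˣ) : k) • (ρbar.ρ σ * valTwFp ρbar p m * ρbar.ρ σ⁻¹) := by
  letI := ZMod.algebra k p
  have h := fpTwist_one_ρ_apply (p := p) (Br.adTw ρbar p) σ m
  exact (congrArg (Br.valTw ρbar p) h).trans (Br.valTw_ρ ρbar p σ m)

/-- `adFp` is a model of `End⁰ V` (untwisted). -/
theorem isAdModel_adFp :
    letI := ZMod.algebra k p
    IsAdModel ρbar.ρ (1 : GQ →* (ZMod p)ˣ) (adFp ρbar p) (valFp ρbar p) := by
  letI := ZMod.algebra k p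
  exact
    { injective := Br.val_injective ρbar
      trace_eq_zero := Br.trace_val ρbar
      surjective := fun x hx => ⟨Br.mk0 ρbar x hx, rfl⟩
      equivariant := fun g m => by
        rw [valFp_ρ, MonoidHom.one_apply, Units.val_one, map_one, one_smul] }

/-- `adTwFp` is a model of `End⁰ V ⊗ cycloChar`. -/
theorem isAdModel_adTwFp :
    letI := ZMod.algebra k p
    IsAdModel ρbar.ρ (cycloChar p) (adTwFp ρbar p) (valTwFp ρbar p) := by
  letI := ZMod.algebra k p
  exact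
    { injective := Br.valTw_injective ρbar p
      trace_eq_zero := Br.trace_valTw ρbar p
      surjective := fun x hx => ⟨Br.mkTw ρbar p x hx, rfl⟩
      equivariant := fun g m => by
        rw [valTwFp_ρ, Br.cycK_coe]
        rfl }

theorem finrank_V_ne_zero (hp2 : p ≠ 2) : (finrank k ρbar.V : k) ≠ 0 :=
  letI := ZMod.algebra k p
  finrank_ne_zero_of_eq_two (p := p) hp2 ρbar.finrank_eq

/-- **(B2)** `ad⁰ρ̄(1) ≅ Hom(ad⁰ρ̄, μ_p)` over `F_p`, by the trace pairing. -/
def adTwFpIso (hp2 : p ≠ 2) : adTwFp ρbar p ≅ tdual p (adFp ρbar p) :=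
  letI := ZMod.algebra k p
  adIsoTw (finrank_V_ne_zero ρbar p hp2) (isAdModel_adFp ρbar p) (isAdModel_adTwFp ρbar p)

/-- **(B2′)** `ad⁰ρ̄ ≅ Hom(ad⁰ρ̄(1), μ_p)` over `F_p`, by the trace pairing. -/
def adFpIso (hp2 : p ≠ 2) : adFp ρbar p ≅ tdual p (adTwFp ρbar p) :=
  letI := ZMod.algebra k p
  adIsoUn (finrank_V_ne_zero ρbar p hp2) (isAdModel_adFp ρbar p) (isAdModel_adTwFp ρbar p)

theorem adTwFpIso_apply (hp2 : p ≠ 2) (b : adTwFp ρbar p) (a : adFp ρbar p) :
    letI := ZMod.algebra k p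
    ((adTwFpIso ρbar p hp2).hom.hom b : Module.Dual (ZMod p) (adFp ρbar p)) a =
      Algebra.trace (ZMod p) k
        (LinearMap.trace k ρbar.V (valTwFp ρbar p b * valFp ρbar p a)) := rfl

theorem adFpIso_apply (hp2 : p ≠ 2) (a : adFp ρbar p) (b : adTwFp ρbar p) :
    letI := ZMod.algebra k p
    ((adFpIso ρbar p hp2).hom.hom a : Module.Dual (ZMod p) (adTwFp ρbar p)) b =
      Algebra.trace (ZMod p) k
        (LinearMap.trace k ρbar.V (valFp ρbar p a * valTwFp ρbar p b)) := rfl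

/-- `dim_{F_p} ad⁰ρ̄ = 3 [k : F_p]`. -/
theorem finrank_adFp (hp2 : p ≠ 2) :
    letI := ZMod.algebra k p
    finrank (ZMod p) (adFp ρbar p) = finrank (ZMod p) k * 3 := by
  letI := ZMod.algebra k p
  have h := (isAdModel_adFp ρbar p).finrank_eq (finrank_V_ne_zero ρbar p hp2)
  rw [ρbar.finrank_eq] at h
  exact h

/-- `dim_{F_p} ad⁰ρ̄(1) = 3 [k : F_p]`. -/
theorem finrank_adTwFp (hp2 : p ≠ 2) :
    letI := ZMod.algebra k p
    finrank (ZMod p) (adTwFp ρbar p) = finrank (ZMod p) k * 3 := by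
  letI := ZMod.algebra k p
  have h := (isAdModel_adTwFp ρbar p).finrank_eq (finrank_V_ne_zero ρbar p hp2)
  rw [ρbar.finrank_eq] at h
  exact h

instance finiteDimensional_adFp : FiniteDimensional (ZMod p) (adFp ρbar p) :=
  letI := ZMod.algebra k p
  (isAdModel_adFp ρbar p).finiteDimensional

instance finiteDimensional_adTwFp : FiniteDimensional (ZMod p) (adTwFp ρbar p) :=
  letI := ZMod.algebra k p
  (isAdModel_adTwFp ρbar p).finiteDimensional

end Fermat.Agent.S56.H833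

end
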